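import Fermat.Agent.H12.SS2.Reg11Rows2

/-!
# P-SS2 row 1074 (SS2-C5i POINT-ABOVE), helper2

`Fermat.Agent.H2.pointAbove : Fermat.Agent.H12.SS2.PointAboveStatement` : going-up along the
integral extension of charts `B(y') → B(y)`, through a prescribed valuation subring `V ⊇ B(y)`.

* `paMap y'` : the ring homomorphism `B(y') → B(y)`, `y = algebraMap E' E y'`;
* `paMap_isIntegral` : it is integral;
* `paCentre V hBV` : the centre `{s ∈ B | s ∈ 𝔪_V}` of `V` on `B`, a prime ideal;
* `pa_exists_above` : the abstract going-up statement;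
* `pointAbove` : the row.
-/

set_option autoImplicit false
set_option linter.style.haveILetI false
set_option linter.unusedSectionVars false

noncomputable section

namespace Fermat.Agent.H2

open Polynomial
open Fermat.Agent.H22.KL

section PA

variable {A : Type} [CommRing A] {E' E : Type} [Field E'] [Field E] [Algebra A E']
  [Algebra A E] [Algebra E' E] [IsScalarTower A E' E]

theorem pa_evX_comp (y' : E') :
    (algebraMap E' E).comp (Fermat.Agent.H87.KL.evX (A := A) y')
      = Fermat.Agent.H87.KL.evX (A := A) (algebraMap E' E y') := by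
  ext a
  · simp only [RingHom.comp_apply, Fermat.Agent.H87.KL.evX_apply, aeval_C]
    exact (IsScalarTower.algebraMap_apply A E' E a).symm
  · simp only [RingHom.comp_apply, Fermat.Agent.H87.KL.evX_apply, aeval_X]

/-- `B(y') ⊆ B(y)`. -/
theorem pa_map_mem_chartClosure {y' d : E'} (hd : d ∈ chartClosure A E' y') :
    algebraMap E' E d ∈ chartClosure A E (algebraMap E' E y') := by
  rw [Fermat.Agent.H87.KL.mem_chartClosure_iff] at hd ⊢
  obtain ⟨p, hp, hpd⟩ := hd
  refine ⟨p, hp, ?_⟩
  rw [← pa_evX_comp, ← Polynomial.hom_eval₂, hpd, map_zero]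

/-- The ring homomorphism `B(y') → B(y)`, `y = algebraMap E' E y'`. -/
def paMap (y' : E') : chartClosure A E' y' →+* chartClosure A E (algebraMap E' E y') where
  toFun s := ⟨algebraMap E' E (s : E'), pa_map_mem_chartClosure s.2⟩
  map_one' := Subtype.ext (by simp)
  map_mul' a b := Subtype.ext (by simp)
  map_zero' := Subtype.ext (by simp)
  map_add' a b := Subtype.ext (by simp)

theorem paMap_coe (y' : E') (s : chartClosure A E' y') :
    ((paMap (A := A) (E := E) y' s : chartClosure A E (algebraMap E' E y')) : E)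
      = algebraMap E' E (s : E') := rfl

theorem pa_aeval_mem_chartClosure (y' : E') (H : A[X]) :
    Fermat.Agent.H87.KL.evX (A := A) y' H ∈ chartClosure A E' y' := by
  rw [Fermat.Agent.H87.KL.mem_chartClosure_iff]
  refine ⟨X - C H, monic_X_sub_C H, ?_⟩
  simp

/-- `A[X] → B(y')`, `X ↦ y'`. -/
def paEv (y' : E') : A[X] →+* chartClosure A E' y' :=
  (Fermat.Agent.H87.KL.evX (A := A) y').codRestrict (chartClosure A E' y').toSubring
    (fun H => pa_aeval_mem_chartClosure y' H)

theorem paEv_coe (y' : E') (H : A[X]) :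
    ((paEv (A := A) y' H : chartClosure A E' y') : E') = Fermat.Agent.H87.KL.evX (A := A) y' H :=
  rfl

/-- `B(y)` is integral over `B(y')`. -/
theorem paMap_isIntegral (y' : E') : (paMap (A := A) (E := E) y').IsIntegral := by
  intro b
  have hb := b.2
  rw [Fermat.Agent.H87.KL.mem_chartClosure_iff] at hb
  obtain ⟨p, hp, hpb⟩ := hb
  refine ⟨p.map (paEv y'), hp.map _, ?_⟩
  rw [Polynomial.eval₂_map]
  -- compare in `E`
  apply Subtype.ext
  have h1 : ((Polynomial.eval₂ ((paMap (A := A) (E := E) y').comp (paEv y')) b p :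
      chartClosure A E (algebraMap E' E y')) : E)
      = Polynomial.eval₂ (Fermat.Agent.H87.KL.evX (A := A) (algebraMap E' E y')) (b : E) p := by
    have h2 := Polynomial.hom_eval₂ p ((paMap (A := A) (E := E) y').comp (paEv y'))
      (algebraMap (chartClosure A E (algebraMap E' E y')) E) b
    have h3 : (algebraMap (chartClosure A E (algebraMap E' E y')) E).comp
        ((paMap (A := A) (E := E) y').comp (paEv y'))
        = Fermat.Agent.H87.KL.evX (A := A) (algebraMap E' E y') := by
      rw [← pa_evX_comp]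
      ext a <;> rfl
    rw [h3] at h2
    exact h2
  rw [h1, hpb]
  rfl

/-- The centre of `V ⊇ B(y)` on `B(y)`. -/
def paCentre {y : E} (V : ValuationSubring E) (hBV : ∀ z ∈ chartClosure A E y, z ∈ V) :
    Ideal (chartClosure A E y) :=
  Ideal.comap ((algebraMap (chartClosure A E y) E).codRestrict V.toSubring
    (fun s => hBV _ s.2)) (IsLocalRing.maximalIdeal V)

theorem mem_paCentre {y : E} (V : ValuationSubring E) (hBV : ∀ z ∈ chartClosure A E y, z ∈ V)
    (s : chartClosure A E y) : s ∈ paCentre V hBV ↔ (s : E) ∈ V.nonunits := by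
  unfold paCentre
  rw [Ideal.mem_comap, ← ValuationSubring.coe_mem_nonunits_iff]
  rfl

instance paCentre_isPrime {y : E} (V : ValuationSubring E)
    (hBV : ∀ z ∈ chartClosure A E y, z ∈ V) : (paCentre V hBV).IsPrime := by
  unfold paCentre
  exact Ideal.comap_isPrime _ _

/-- **Going up through a valuation**: above a maximal ideal `𝔪'` of `B(y')` containing the
centre of `V ∩ E'` there is a maximal ideal of `B(y)` containing the centre of `V`. -/
theorem pa_exists_above (y' : E') (𝔪' : Ideal (chartClosure A E' y')) (h𝔪' : 𝔪'.IsMaximal)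
    (V : ValuationSubring E) (hBV : ∀ z ∈ chartClosure A E (algebraMap E' E y'), z ∈ V)
    (hthru : ∀ s : chartClosure A E' y', algebraMap E' E (s : E') ∈ V.nonunits → s ∈ 𝔪') :
    ∃ 𝔪a : Ideal (chartClosure A E (algebraMap E' E y')), 𝔪a.IsMaximal ∧
      𝔪a.comap (paMap (A := A) (E := E) y') = 𝔪' ∧
      ∀ s : chartClosure A E (algebraMap E' E y'), (s : E) ∈ V.nonunits → s ∈ 𝔪a := by
  letI : Algebra (chartClosure A E' y') (chartClosure A E (algebraMap E' E y')) :=
    (paMap (A := A) (E := E) y').toAlgebra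
  haveI : Algebra.IsIntegral (chartClosure A E' y') (chartClosure A E (algebraMap E' E y')) :=
    ⟨paMap_isIntegral y'⟩
  haveI : 𝔪'.IsPrime := h𝔪'.isPrime
  have hle : (paCentre V hBV).comap
      (algebraMap (chartClosure A E' y') (chartClosure A E (algebraMap E' E y'))) ≤ 𝔪' := by
    intro s hs
    rw [Ideal.mem_comap, mem_paCentre] at hs
    exact hthru s hs
  obtain ⟨Q, hQ, hQp, hQc⟩ := Ideal.exists_ideal_over_prime_of_isIntegral 𝔪' (paCentre V hBV) hle
  haveI := hQp
  refine ⟨Q, ?_, hQc, fun s hs => hQ ((mem_paCentre V hBV s).2 hs)⟩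
  exact Ideal.isMaximal_of_isIntegral_of_isMaximal_comap (R := chartClosure A E' y') Q
    (hQc ▸ h𝔪')

end PA

/-- **Row 1074 (SS2-C5i POINT-ABOVE)**. -/
theorem pointAbove : Fermat.Agent.H12.SS2.PointAboveStatement := by
  intro A _ _ _ E' _ _ _ E _ _ _ _ _ _ ϖ _ y' _ _ y hy _ 𝔪' h𝔪' V hBV hthru
  subst hy
  obtain ⟨𝔪a, hmax, hcomap, hV⟩ := pa_exists_above (A := A) (E := E) y' 𝔪' h𝔪' V hBV
    (fun s hs => hthru s ((Fermat.Agent.H99.SS2.mem_nonunits_comap_iff V _ _).2 hs))
  have hprime : 𝔪a.IsPrime := hmax.isPrime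
  refine ⟨𝔪a, hmax, ⟨fun s => ?_, fun s => ?_⟩, hV⟩
  · exact Fermat.Agent.H99.SS2.InLoc.of_mem hprime (paMap (A := A) (E := E) y' s).2
  · rw [← hcomap, Ideal.mem_comap]
    constructor
    · intro h
      exact Fermat.Agent.H99.SS2.InLocMax.of_mem hprime h
    · intro h
      exact Fermat.Agent.H99.SS2.mem_of_inLocMax hprime (s := paMap (A := A) (E := E) y' s) h

end Fermat.Agent.H2
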